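/-
GATE-E / E9-GROWTH-PLUG (helper73), file 5: **the binder `hsame` of `RTPlug.hgrow_next_cond*` /
`nextFL` / `nextSO` from the Hecke side**: the modular points `Y.πO ∘ Y.rt.π` (level `N`) and
`πO' ∘ π'` (level `N'`) have the same Hecke eigenvalues `T_ℓ` outside a finite set `B` ⟹ the two
`𝒪`-valued Galois representations `ρT' ⊗_{πO'} 𝒪`, `ρT ⊗_{πO} 𝒪` are equivalent
(Chebotarev = `GJ/Tate/Carayol.trace_eq_of_charpoly_frob_eq`, Carayol uniqueness =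
`S53_helper35.isEquiv_of_trace_eq`; `ρbar` absolutely irreducible is a field of
`DeformationRingData`).

* `isEquiv_of_charpoly_frob_eq` : two lifts of an absolutely irreducible `ρbar` over a Noetherian
  local ring with equal Frobenius characteristic polynomials outside `B` are equivalent;
* `residual_point_isEquiv` : the representation at a point of `T` is a lift of `ρbar`;
* **`hsame_of_hecke`**.
-/
import Mathlib
import Fermat.Agent.GE9.CotGrowth.RTPlug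
import Fermat.Agent.S53_helper35.Wrappers

set_option autoImplicit false
set_option linter.unusedSectionVars false
set_option linter.style.haveILetI false

namespace Fermat.Agent.GE9.CotGrowth

open IsLocalRing Module Matrix Function Polynomial
open Fermat.Agent.Common_helper32 Fermat.Agent.GE.Graph Fermat.Agent.GE9.Ind CuspForm

/-- **Chebotarev + Carayol**: two lifts of an absolutely irreducible residual representation with
the same Frobenius characteristic polynomials outside a finite set are equivalent. -/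
theorem isEquiv_of_charpoly_frob_eq {A : Type} [CommRing A] [IsLocalRing A] [IsNoetherianRing A]
    (ρ ρ' : GaloisRepAdic A) {k : Type} [Field k] (ρbar : ResidualGaloisRep k)
    (habs : ρbar.IsAbsolutelyIrreducible) (ι : k →+* ResidueField A)
    (h : ρ.residual.IsEquiv (ρbar.baseChangeAlong ι))
    (h' : ρ'.residual.IsEquiv (ρbar.baseChangeAlong ι)) (B : Finset ℕ)
    (hfrob : ∀ ℓ : ℕ, ℓ.Prime → ℓ ∉ B → ∀ P : ValuationSubring Qb, P.LiesOverPrime ℓ →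
      ∀ σ : GQ, P.IsFrobeniusAt σ ℓ →
        LinearMap.charpoly (ρ.ρ σ) = LinearMap.charpoly (ρ'.ρ σ)) : ρ.IsEquiv ρ' :=
  Fermat.Agent.S53_helper35.isEquiv_of_trace_eq ρ ρ' ρbar habs ι h h'
    (fun σ => Fermat.Agent.GJ.Tate.Carayol.trace_eq_of_charpoly_frob_eq ρ ρ' B hfrob σ)

section Point

variable {𝒪 : Type} [CommRing 𝒪] [IsDomain 𝒪] [IsDiscreteValuationRing 𝒪]
  [IsAdicComplete (maximalIdeal 𝒪) 𝒪]
  {ρbar : ResidualGaloisRep (ResidueField 𝒪)}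
  {𝒟 : ∀ ⦃A : Type⦄ [CommRing A] [IsLocalRing A] [Algebra 𝒪 A], GaloisRepAdic A → Prop}

/-- the representation at an `𝒪`-point of `T` is a lift of `ρbar` -/
theorem residual_point_isEquiv (D : GaloisRep.DeformationRingData 𝒪 ρbar 𝒟)
    {T : Type} [CommRing T] [IsLocalRing T] [Algebra 𝒪 T] (ρT : GaloisRepAdic T)
    (φ : D.R →ₐ[𝒪] T) (hφ : IsLocalHom (φ : D.R →+* T))
    (hφρ : (D.ρ.baseChangeAlong (φ : D.R →+* T) hφ).IsEquiv ρT)
    (πO : T →ₐ[𝒪] 𝒪) (hπO : IsLocalHom (πO : T →+* 𝒪)) :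
    (ρT.baseChangeAlong (πO : T →+* 𝒪) hπO).residual.IsEquiv
      (ρbar.baseChangeAlong (ResidueField.map (algebraMap 𝒪 𝒪))) := by
  have hloc : IsLocalHom ((πO.comp φ : D.R →ₐ[𝒪] 𝒪) : D.R →+* 𝒪) :=
    Fermat.Agent.GP.Top.isLocalHom_comp' (φ : D.R →+* T) hφ (πO : T →+* 𝒪) hπO
  haveI : IsLocalHom (algebraMap 𝒪 𝒪) := ⟨fun _ h => h⟩
  obtain ⟨e0⟩ := Fermat.Agent.GP.Tan.UnivInj.residual_baseChangeAlong_univ D (πO.comp φ) hloc
  obtain ⟨e1⟩ := Fermat.Agent.GP.Top.baseChangeAlong_comp_isEquiv D.ρ (φ : D.R →+* T) hφ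
    (πO : T →+* 𝒪) hπO
  obtain ⟨e2⟩ := hφρ
  exact ⟨(((e2.baseChangeAlong (πO : T →+* 𝒪) hπO).symm.trans e1).residual).trans e0⟩

end Point

section Same

variable {𝒪 : Type} [CommRing 𝒪] [IsDomain 𝒪] [IsDiscreteValuationRing 𝒪]
  [IsAdicComplete (maximalIdeal 𝒪) 𝒪]
  {ρbar : ResidualGaloisRep (ResidueField 𝒪)}
  {𝒟 𝒟' : ∀ ⦃A : Type⦄ [CommRing A] [IsLocalRing A] [Algebra 𝒪 A], GaloisRepAdic A → Prop}

/-- **`hsame` from the Hecke side**: equal eigenvalues of `T_ℓ`, `ℓ ∉ B`, at the two modular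
points. -/
theorem hsame_of_hecke {d : ℕ} (Y : RTNum ρbar 𝒟 d)
    (D' : GaloisRep.DeformationRingData 𝒪 ρbar 𝒟')
    {N' : ℕ} [NeZero N'] {S' : Set ℕ} {T' : Type} [CommRing T'] [IsLocalRing T'] [Algebra 𝒪 T']
    (π' : heckeAlgebra N' 2 S' →+* T') (ρT' : GaloisRepAdic T')
    (hcp' : ∀ (r : ℕ) (hr : r.Prime) (hrN : ¬ r ∣ N') (hrS : r ∉ S'),
      ∀ A : ValuationSubring (AlgebraicClosure ℚ), A.LiesOverPrime r →
        ∀ σ : GQ, A.IsFrobeniusAt σ r →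
          LinearMap.charpoly (ρT'.ρ σ) =
            X ^ 2 - C (π' (heckeAlgebra.T hr hrN hrS)) * X + C ((r : T')))
    (φ' : D'.R →ₐ[𝒪] T') (φ'_local : IsLocalHom (φ' : D'.R →+* T'))
    (φ'_ρ : (D'.ρ.baseChangeAlong (φ' : D'.R →+* T') φ'_local).IsEquiv ρT')
    (πO' : T' →ₐ[𝒪] 𝒪)
    (hπO : IsLocalHom (Y.πO : Y.rt.T →+* 𝒪)) (hπO' : IsLocalHom (πO' : T' →+* 𝒪))
    (B : Finset ℕ)
    (hB : ∀ ℓ : ℕ, ℓ.Prime → ℓ ∉ B → ¬ ℓ ∣ Y.rt.N ∧ ℓ ∉ Y.rt.S ∧ ¬ ℓ ∣ N' ∧ ℓ ∉ S')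
    (heig : ∀ (ℓ : ℕ) (hℓ : ℓ.Prime) (hℓN : ¬ ℓ ∣ Y.rt.N) (hℓS : ℓ ∉ Y.rt.S) (hℓN' : ¬ ℓ ∣ N')
      (hℓS' : ℓ ∉ S'), ℓ ∉ B →
        πO' (π' (heckeAlgebra.T hℓ hℓN' hℓS')) = Y.πO (Y.rt.π (heckeAlgebra.T hℓ hℓN hℓS))) :
    (ρT'.baseChangeAlong (πO' : T' →+* 𝒪) hπO').IsEquiv
      (Y.rt.ρT.baseChangeAlong (Y.πO : Y.rt.T →+* 𝒪) hπO) := by
  refine isEquiv_of_charpoly_frob_eq _ _ ρbar D'.absIrr (ResidueField.map (algebraMap 𝒪 𝒪))
    (residual_point_isEquiv D' ρT' φ' φ'_local φ'_ρ πO' hπO')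
    (residual_point_isEquiv Y.rt.D Y.rt.ρT Y.rt.φ Y.rt.φ_local Y.rt.φ_ρ Y.πO hπO) B ?_
  intro ℓ hℓ hℓB P hP σ hσ
  obtain ⟨hℓN, hℓS, hℓN', hℓS'⟩ := hB ℓ hℓ hℓB
  rw [charpoly_baseChangeAlongE, charpoly_baseChangeAlongE, hcp' ℓ hℓ hℓN' hℓS' P hP σ hσ,
    Y.rt.charpoly_frob ℓ hℓ hℓN hℓS P hP σ hσ]
  simp only [Polynomial.map_sub, Polynomial.map_add, Polynomial.map_mul, Polynomial.map_pow,
    Polynomial.map_X, Polynomial.map_C, map_natCast]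
  have := heig ℓ hℓ hℓN hℓS hℓN' hℓS' hℓB
  simp only [RingHom.coe_coe] at this ⊢
  rw [this, Polynomial.map_natCast, Polynomial.map_natCast]

end Same

end Fermat.Agent.GE9.CotGrowth
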