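/-
GATE-E / E9-GROWTH-PLUG (helper73), file 1: **the Galois plug of the one-prime tangent growth**, on
top of helper63's algebraic core `GE9/TanGrow` (`card_cotangent_le_mul_wiles`).

`R'` a Noetherian local `O`-algebra (`O` a DVR with finite residue field of characteristic `p`),
`ρ' : GaloisRepAdic R'`, `π' : R' →ₐ[O] O` an augmentation, `P` a place of `ℚ̄` over a prime
`q ≠ p`, `φ` a Frobenius at `P`.

* `mat ρ σ` : the matrix of `ρ σ` in a fixed basis; `inertiaIdeal ρ P` : the ideal generated by the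
  entries of `ρ(s) − 1`, `s ∈ I_P` (the kernel of "impose unramified at `q`");
* `inertiaIdeal_eq_entryIdeal` : it is generated by the four entries of `ρ(τ₀) − 1`, `τ₀` a tame
  generator (helper67's `IsTameGenerator.closure_principle` + Krull intersection);
* **`card_cotangent_le_of_galois`** : for `f : R' ↠ R` augmented with `ker f ≤ inertiaIdeal ρ' P`,
  `ρ'_π'` unramified at `P`, `det ρ' = 1` on `I_P`, `π'(det ρ'(φ)) = q`:
  `#(𝔭'/𝔭'²) ≤ #(O ⧸ ((q − 1)((1 + q)² − a_q²))) · #(𝔭/𝔭²)`, `a_q = π'(tr ρ'(φ))`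
  (tame relation of helper67's `TameRelAdic.tame_relation` + ONE application of the core).
-/
import Mathlib
import Fermat.Agent.GE9.TanGrow.Main
import Fermat.Agent.GB.E2.TameGenAdic

set_option autoImplicit false
set_option linter.unusedSectionVars false
set_option linter.style.haveILetI false

namespace Fermat.Agent.GE9.CotGrowth

open IsLocalRing Module Matrix
open Fermat.Agent.Common_helper32 Fermat.Agent.GJ.Tate.Carayol
  Fermat.Agent.GB.E2.TameRelAdic Fermat.Agent.GB.E2.TameGenAdic Fermat.Agent.GE9.TanGrow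

/-! ### matrices and `I • ⊤` -/

section Entries

variable {A : Type*} [CommRing A] {V : Type*} [AddCommGroup V] [Module A V]
  {ι : Type*} [Fintype ι] [DecidableEq ι] (b : Basis ι A V) (I : Ideal A)

/-- the matrix of `g` has entries in `I` iff `g` maps `V` into `I V` -/
theorem toMatrix_mem_iff (g : Module.End A V) :
    (∀ i j, LinearMap.toMatrix b b g i j ∈ I) ↔ ∀ v, g v ∈ I • (⊤ : Submodule A V) := by
  constructor
  · intro h v
    have hb : ∀ j, g (b j) ∈ I • (⊤ : Submodule A V) := by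
      intro j
      rw [← b.sum_repr (g (b j))]
      refine Submodule.sum_mem _ fun i _ => ?_
      have := h i j
      rw [LinearMap.toMatrix_apply] at this
      exact Submodule.smul_mem_smul this Submodule.mem_top
    rw [← b.sum_repr v, map_sum]
    refine Submodule.sum_mem _ fun j _ => ?_
    rw [map_smul]
    exact Submodule.smul_mem _ _ (hb j)
  · intro h i j
    rw [LinearMap.toMatrix_apply]
    exact repr_mem_of_mem_smul_top I b (h (b j)) i

end Entries

/-! ### Krull -/

/-- in a Noetherian local ring an ideal is closed for the `𝔪`-adic topology -/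
theorem mem_of_forall_mem_sup_pow {A : Type*} [CommRing A] [IsLocalRing A] [IsNoetherianRing A]
    (J : Ideal A) (x : A) (h : ∀ n : ℕ, x ∈ J ⊔ maximalIdeal A ^ n) : x ∈ J := by
  have hbot := Ideal.iInf_pow_smul_eq_bot_of_isLocalRing (M := A ⧸ J) (maximalIdeal A)
    (maximalIdeal.isMaximal A).ne_top
  have hx : Ideal.Quotient.mk J x ∈ (⨅ i : ℕ, maximalIdeal A ^ i • (⊤ : Submodule A (A ⧸ J))) := by
    rw [Submodule.mem_iInf]
    intro n
    obtain ⟨j, hj, m, hm, rfl⟩ := Submodule.mem_sup.mp (h n)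
    have e : Ideal.Quotient.mk J (j + m) = m • (1 : A ⧸ J) := by
      rw [map_add, Ideal.Quotient.eq_zero_iff_mem.mpr hj, zero_add, Algebra.smul_def, mul_one]
      rfl
    rw [e]
    exact Submodule.smul_mem_smul hm Submodule.mem_top
  rw [hbot, Submodule.mem_bot] at hx
  exact Ideal.Quotient.eq_zero_iff_mem.mp hx

/-! ### the matrices of a Galois representation -/

section GalMat

variable {A : Type} [CommRing A] [IsLocalRing A] (ρ : GaloisRepAdic A)

/-- a basis of the rank two module -/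
noncomputable def stdBasis : Basis (Fin 2) A ρ.V := Module.finBasisOfFinrankEq A ρ.V ρ.finrank_eq

/-- the matrix of `ρ σ` -/
noncomputable def mat (σ : GQ) : Matrix (Fin 2) (Fin 2) A :=
  LinearMap.toMatrix (stdBasis ρ) (stdBasis ρ) (ρ.ρ σ)

theorem mat_one : mat ρ 1 = 1 := by
  rw [mat, map_one]
  exact LinearMap.toMatrix_one _

theorem mat_mul (σ τ : GQ) : mat ρ (σ * τ) = mat ρ σ * mat ρ τ := by
  rw [mat, map_mul]
  exact LinearMap.toMatrix_mul _ _ _

theorem toMatrix_pow (f : Module.End A ρ.V) (n : ℕ) :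
    LinearMap.toMatrix (stdBasis ρ) (stdBasis ρ) (f ^ n)
      = LinearMap.toMatrix (stdBasis ρ) (stdBasis ρ) f ^ n := by
  induction n with
  | zero =>
    rw [pow_zero, pow_zero]
    exact LinearMap.toMatrix_one _
  | succ n ih =>
    rw [pow_succ, pow_succ, ← ih]
    exact LinearMap.toMatrix_mul _ _ _

theorem det_mat (σ : GQ) : (mat ρ σ).det = LinearMap.det (ρ.ρ σ) :=
  LinearMap.det_toMatrix _ _

theorem trace_mat (σ : GQ) : (mat ρ σ).trace = LinearMap.trace A ρ.V (ρ.ρ σ) :=
  (LinearMap.trace_eq_matrix_trace A (stdBasis ρ) (ρ.ρ σ)).symm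

/-- the ideal generated by the entries of `ρ(s) − 1`, `s ∈ I_P` -/
def inertiaIdeal (P : ValuationSubring Qb) : Ideal A :=
  Ideal.span {x | ∃ s ∈ P.inertiaSubgroupIn ℚ, ∃ i j, x = (mat ρ s - 1) i j}

theorem entry_mem_inertiaIdeal (P : ValuationSubring Qb) {s : GQ}
    (hs : s ∈ P.inertiaSubgroupIn ℚ) (i j : Fin 2) : (mat ρ s - 1) i j ∈ inertiaIdeal ρ P :=
  Ideal.subset_span ⟨s, hs, i, j, rfl⟩

theorem entry_mem_entryIdeal (T : Matrix (Fin 2) (Fin 2) A) (i j : Fin 2) :
    (T - 1) i j ∈ entryIdeal T :=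
  Ideal.subset_span ⟨(i, j), (Matrix.sub_apply T 1 i j).symm⟩

theorem entryIdeal_le_inertiaIdeal (P : ValuationSubring Qb) {s : GQ}
    (hs : s ∈ P.inertiaSubgroupIn ℚ) : entryIdeal (mat ρ s) ≤ inertiaIdeal ρ P := by
  rw [entryIdeal, Ideal.span_le]
  rintro _ ⟨ij, rfl⟩
  have := entry_mem_inertiaIdeal ρ P hs ij.1 ij.2
  rwa [Matrix.sub_apply] at this

/-- if the entries of `ρ(s) − 1` lie in `I`, then `ρ(s) − 1` maps `V` into `I V` -/
theorem apply_sub_mem_of_entries (I : Ideal A) {s : GQ}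
    (h : ∀ i j, (mat ρ s - 1) i j ∈ I) (v : ρ.V) :
    ρ.ρ s v - v ∈ I • (⊤ : Submodule A ρ.V) := by
  have h1 : ∀ i j, LinearMap.toMatrix (stdBasis ρ) (stdBasis ρ) (ρ.ρ s - 1) i j ∈ I := by
    intro i j
    have : LinearMap.toMatrix (stdBasis ρ) (stdBasis ρ) (ρ.ρ s - 1) = mat ρ s - 1 := by
      rw [map_sub, mat]
      congr 1
      exact LinearMap.toMatrix_one _
    rw [this]
    exact h i j
  have := (toMatrix_mem_iff (stdBasis ρ) I (ρ.ρ s - 1)).mp h1 v
  rwa [LinearMap.sub_apply, Module.End.one_apply] at this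

variable {P : ValuationSubring Qb} {p : ℕ} {τ₀ : GQ}

/-- **the inertia ideal is generated by the entries of `ρ(τ₀) − 1`** -/
theorem inertiaIdeal_eq_entryIdeal [IsNoetherianRing A] (h : IsTameGenerator P p τ₀)
    (hp : p.Prime) (hpA : (p : A) ∈ maximalIdeal A)
    (hunr : ∀ s ∈ P.inertiaSubgroupIn ℚ, ∀ v : ρ.V,
      ρ.ρ s v - v ∈ maximalIdeal A • (⊤ : Submodule A ρ.V)) :
    inertiaIdeal ρ P = entryIdeal (mat ρ τ₀) := by
  apply le_antisymm
  · rw [inertiaIdeal, Ideal.span_le]
    rintro _ ⟨s, hs, i, j, rfl⟩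
    -- closure principle
    have key := h.closure_principle ρ hp hpA hunr
      (fun X => ∀ i j, (LinearMap.toMatrix (stdBasis ρ) (stdBasis ρ) X - 1) i j
        ∈ entryIdeal (mat ρ τ₀)) ?_ ?_ hs
    · exact key i j
    · -- closedness
      intro X hX i j
      refine mem_of_forall_mem_sup_pow _ _ fun n => ?_
      obtain ⟨Y, hY, hXY⟩ := hX n
      have hZ : redMat (maximalIdeal A ^ n) ρ.V (X - Y) = 0 := by
        rw [map_sub, hXY, sub_self]
      have hZ' : ∀ i j, LinearMap.toMatrix (Free.chooseBasis A ρ.V) (Free.chooseBasis A ρ.V)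
          (X - Y) i j ∈ maximalIdeal A ^ n := by
        intro i j
        have := congrFun (congrFun hZ i) j
        rw [redMat_apply, Matrix.zero_apply, Ideal.Quotient.eq_zero_iff_mem] at this
        rw [LinearMap.toMatrix_apply]
        exact this
      have hZv := (toMatrix_mem_iff (Free.chooseBasis A ρ.V) _ (X - Y)).mp hZ'
      have hZ'' := (toMatrix_mem_iff (stdBasis ρ) _ (X - Y)).mpr hZv i j
      have e : (LinearMap.toMatrix (stdBasis ρ) (stdBasis ρ) X - 1) i j
          = (LinearMap.toMatrix (stdBasis ρ) (stdBasis ρ) Y - 1) i j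
            + LinearMap.toMatrix (stdBasis ρ) (stdBasis ρ) (X - Y) i j := by
        rw [map_sub, Matrix.sub_apply, Matrix.sub_apply, Matrix.sub_apply]
        ring
      rw [e]
      exact Submodule.add_mem_sup (hY i j) hZ''
    · -- powers of the generator
      intro k i j
      rw [toMatrix_pow]
      have hgeom := geom_sum_mul (mat ρ τ₀) k
      show (mat ρ τ₀ ^ k - 1) i j ∈ entryIdeal (mat ρ τ₀)
      rw [← hgeom, Matrix.mul_apply]
      refine Ideal.sum_mem _ fun l _ => ?_
      exact Ideal.mul_mem_left _ _ (entry_mem_entryIdeal _ l j)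
  · exact entryIdeal_le_inertiaIdeal ρ P h.mem_inertia

end GalMat

/-! ### the bound -/

section Bound

variable {O : Type} [CommRing O] [IsDomain O] [IsDiscreteValuationRing O]
  [Finite (ResidueField O)]
  {R' : Type} [CommRing R'] [IsLocalRing R'] [IsNoetherianRing R'] [Algebra O R']
  {R : Type} [CommRing R] [Algebra O R]
  (ρ' : GaloisRepAdic R') (π' : R' →ₐ[O] O) (π : R →ₐ[O] O)

omit [IsDomain O] [IsDiscreteValuationRing O] [Finite (ResidueField O)] [IsNoetherianRing R'] in
/-- the augmentation ideal is contained in the maximal ideal -/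
theorem augIdeal_le_maximalIdeal [Nontrivial O] : augIdeal π' ≤ maximalIdeal R' := by
  apply IsLocalRing.le_maximalIdeal
  intro htop
  have : (1 : R') ∈ augIdeal π' := htop ▸ Submodule.mem_top
  rw [mem_augIdeal, map_one] at this
  exact one_ne_zero this

/-- **E9-GROWTH, Galois form**: the one-prime tangent growth bound for an augmented surjection
`f : R' ↠ R` whose kernel is contained in the inertia ideal at `P ∣ q` of `ρ'` -/
theorem card_cotangent_le_of_galois (f : R' →ₐ[O] R) (hf : Function.Surjective f)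
    (hπ : π.comp f = π') {p q : ℕ} (hp : p.Prime) (hpR : (p : R') ∈ maximalIdeal R')
    (hq : q.Prime) (hpq : p ≠ q) (P : ValuationSubring Qb) (hP : P.LiesOverPrime q)
    {φ : GQ} (hφ : P.IsFrobeniusAt φ q)
    (hunr : ∀ s ∈ P.inertiaSubgroupIn ℚ, (mat ρ' s).map π' = 1)
    (hdet : ∀ s ∈ P.inertiaSubgroupIn ℚ, LinearMap.det (ρ'.ρ s) = 1)
    (hker : RingHom.ker (f : R' →+* R) ≤ inertiaIdeal ρ' P)
    (hqO : IsUnit (q : O)) (hdetφ : π' (LinearMap.det (ρ'.ρ φ)) = (q : O))
    (hc : ((q : O) - 1) *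
      ((1 + (q : O)) ^ 2 - (π' (LinearMap.trace R' ρ'.V (ρ'.ρ φ))) ^ 2) ≠ 0)
    [Finite (augIdeal π).Cotangent] :
    Nat.card (augIdeal π').Cotangent ≤
      Nat.card (O ⧸ Ideal.span {((q : O) - 1) *
        ((1 + (q : O)) ^ 2 - (π' (LinearMap.trace R' ρ'.V (ρ'.ρ φ))) ^ 2)}) *
        Nat.card (augIdeal π).Cotangent := by
  haveI : Fact p.Prime := ⟨hp⟩
  obtain ⟨τ₀, hτ₀⟩ := exists_isTameGenerator P hq hP p hpq
  have hle := augIdeal_le_maximalIdeal π'
  have hentries : ∀ s ∈ P.inertiaSubgroupIn ℚ, ∀ i j, (mat ρ' s - 1) i j ∈ augIdeal π' := by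
    intro s hs i j
    have h1 := congrFun (congrFun (hunr s hs) i) j
    rw [Matrix.map_apply] at h1
    rw [mem_augIdeal, Matrix.sub_apply, map_sub, h1]
    by_cases hij : i = j
    · subst hij
      rw [Matrix.one_apply_eq, Matrix.one_apply_eq, map_one, sub_self]
    · rw [Matrix.one_apply_ne hij, Matrix.one_apply_ne hij, map_zero, sub_self]
  have hunr' : ∀ s ∈ P.inertiaSubgroupIn ℚ, ∀ v : ρ'.V,
      ρ'.ρ s v - v ∈ maximalIdeal R' • (⊤ : Submodule R' ρ'.V) := by
    intro s hs v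
    exact Submodule.smul_mono_left hle (apply_sub_mem_of_entries ρ' _ (hentries s hs) v)
  -- the tame relation in matrix form
  have htame := tame_relation ρ' P hp hpR hq hpq hP hφ hunr' τ₀ hτ₀.mem_inertia
  have hrel : mat ρ' φ * mat ρ' τ₀ = mat ρ' τ₀ ^ q * mat ρ' φ := by
    have h1 : mat ρ' (φ * τ₀ * φ⁻¹) = mat ρ' τ₀ ^ q := by
      rw [mat, htame, toMatrix_pow]
      rfl
    have h2 : mat ρ' φ⁻¹ * mat ρ' φ = 1 := by
      rw [← mat_mul, inv_mul_cancel, mat_one]
    rw [← h1, mat_mul, mat_mul, mul_assoc, h2, mul_one]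
  have hdetτ : (mat ρ' τ₀).det = 1 := by
    rw [det_mat]
    exact hdet τ₀ hτ₀.mem_inertia
  have hJ := inertiaIdeal_eq_entryIdeal ρ' hτ₀ hp hpR hunr'
  have hker' : RingHom.ker (f : R' →+* R) ≤ entryIdeal (mat ρ' τ₀) := hJ ▸ hker
  have hdetF : (F0 π' (mat ρ' φ)).det = (q : O) := by
    have : (F0 π' (mat ρ' φ)).det = π' (mat ρ' φ).det := by
      rw [F0, Matrix.det_fin_two, Matrix.det_fin_two, map_sub, map_mul, map_mul]
      rfl
    rw [this, det_mat, hdetφ]
  have htr : (F0 π' (mat ρ' φ)).trace = π' (LinearMap.trace R' ρ'.V (ρ'.ρ φ)) := by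
    rw [← trace_mat, F0, Matrix.trace_fin_two, Matrix.trace_fin_two, map_add]
    rfl
  have hc' : wilesFactor (F0 π' (mat ρ' φ)) (q : O) ≠ 0 := by
    rw [wilesFactor, htr]
    exact hc
  have key := card_cotangent_le_mul_wiles (F := mat ρ' φ) (T := mat ρ' τ₀) (q := q) π' π f hf hπ
    (hunr τ₀ hτ₀.mem_inertia) hdetτ hrel hker' hqO hdetF hc'
  rw [wilesFactor, htr] at key
  exact key

end Bound

end Fermat.Agent.GE9.CotGrowth
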