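/-
GATE-E / E9-GROWTH-PLUG (helper73), file 2: **the `hgrow` binder of `GE9.Ind.chain` from two
`DeformationRingData`** (the frozen vocabulary), on top of

* file 1 `GE9/CotGrowth/Gal.lean` (Galois plug of helper63's `TanGrow` core),
* helper22's `GE2/AugQuot.lean` (`R_{Σ ∪ q} / 𝔞_q ≅ R_Σ` by universality),
* helper29's `GP/Loc/PlaceConj.lean` (the places over `q` are conjugate),
* helper67's `GB/E2/TamePair.lean` (`det ρ = 1` on `I_q`, `det ρ(Frob_q) = q`).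

`D : DeformationRingData 𝒪 ρbar 𝒟` (= `R_Σ`), `D' : DeformationRingData 𝒪 ρbar 𝒟'` (= `R_{Σ ∪ q}`),
`𝒟 = 𝒟' ∧ unramified at q`, `ρ₀` an `𝒪`-valued deformation of type `𝒟` classified by
`π : D.R → 𝒪`, `π' : D'.R → 𝒪`.

* `augInertiaIdeal_le` : helper22's basis-free `𝔞_q` (all places over `q`) is contained in the
  ideal of the entries of `ρ(s) − 1`, `s ∈ I_P`, for ONE place `P ∣ q`;
* `map_mat_eq_one_of_isEquiv` : `π'(ρ'(s)) = 1` for `s ∈ I_P` (the binder `hunr` of file 1);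
* `exists_augmented_surjection` : the classifying map `f : D'.R ↠ D.R` with `π ∘ f = π'` and
  `ker f ≤ inertiaIdeal D'.ρ P`;
* **`hgrow_of_deformationRingData`** : `Finite Φ_R → Finite Φ_{R'} ∧ #Φ_{R'} ≤ #Φ_R · #(𝒪/c_q)`,
  `c_q = (q − 1)((1 + q)² − tr ρ₀(Frob_q)²)`: the `hgrow` clause of `Ind.chain` VERBATIM
  (`tanCard` spelling), every Galois binder discharged;
* `hgrow_of_deformationRingData_wiles` : the same with `c := #(𝒪 ⧸ (wilesFactor f₀ q))` for any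
  matrix `f₀` with `tr f₀ = tr ρ₀(Frob_q)` (the `c n` of helper2's `card_congMod_growth_three`).
-/
import Mathlib
import Fermat.Agent.GE9.CotGrowth.Gal
import Fermat.Agent.GE2.AugQuot
import Fermat.Agent.GP.Loc.PlaceConj
import Fermat.Agent.GB.E2.TamePair
import Fermat.Agent.GE9.Ind.Plug

set_option autoImplicit false
set_option linter.unusedSectionVars false
set_option linter.style.haveILetI false

namespace Fermat.Agent.GE9.CotGrowth

open IsLocalRing Module Matrix Function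
open scoped Pointwise
open Fermat.Agent.Common_helper32 Fermat.Agent.GJ.Tate.Carayol Fermat.Agent.GE9.TanGrow

/-! ### the two inertia ideals -/

section Bridge

/-- a linear functional maps `I V` into `I` -/
theorem linearMap_mem_of_mem_smul_top {A : Type*} [CommRing A] {V : Type*} [AddCommGroup V]
    [Module A V] (I : Ideal A) (g : V →ₗ[A] A) {w : V}
    (hw : w ∈ I • (⊤ : Submodule A V)) : g w ∈ I := by
  refine Submodule.smul_induction_on hw ?_ ?_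
  · intro a ha v _
    rw [map_smul, smul_eq_mul]
    exact Ideal.mul_mem_right _ _ ha
  · intro x y hx hy
    rw [map_add]
    exact Ideal.add_mem _ hx hy

variable {A : Type} [CommRing A] [IsLocalRing A] (ρ : GaloisRepAdic A)

/-- functionals of `(ρ(s) − 1) v`, `s ∈ I_P`, lie in the entry ideal of `I_P` -/
theorem functional_mem_inertiaIdeal (P : ValuationSubring Qb) {s : GQ}
    (hs : s ∈ P.inertiaSubgroupIn ℚ) (v : ρ.V) (g : ρ.V →ₗ[A] A) :
    g (ρ.ρ s v - v) ∈ inertiaIdeal ρ P :=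
  linearMap_mem_of_mem_smul_top _ g
    (apply_sub_mem_of_entries ρ (inertiaIdeal ρ P)
      (fun i j => entry_mem_inertiaIdeal ρ P hs i j) v)

/-- **helper22's `𝔞_q` (all places over `q`, basis-free) is contained in the entry ideal of the
inertia group of ONE place `P ∣ q`** (the places over `q` are conjugate). -/
theorem augInertiaIdeal_le {q : ℕ} (hq : q.Prime) (P : ValuationSubring Qb)
    (hP : P.LiesOverPrime q) :
    Fermat.Agent.GE2.AugQuot.inertiaIdeal ρ {q} ≤ inertiaIdeal ρ P := by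
  refine Ideal.span_le.mpr ?_
  rintro a ⟨q', hq', P', hP', s, hs, v, g, rfl⟩
  obtain rfl : q' = q := Finset.mem_singleton.mp hq'
  obtain ⟨τ, rfl⟩ :=
    Fermat.Agent.GP.Loc.PlaceConj.exists_smul_eq_of_liesOverPrime hq P P' hP hP'
  -- `t := τ⁻¹ s τ ∈ I_P`
  have ht : τ⁻¹ * s * τ ∈ P.inertiaSubgroupIn ℚ := by
    have h1 := Fermat.Agent.GC.C0.conj_mem_inertiaSubgroupIn (K := ℚ) τ⁻¹ hs
    have h2 : τ⁻¹ • τ • P = P := inv_smul_smul τ P
    rw [inv_inv] at h1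
    exact h2 ▸ h1
  set t : GQ := τ⁻¹ * s * τ with htdef
  have hs' : s = τ * t * τ⁻¹ := by
    rw [htdef]
    group
  have e : ρ.ρ s v - v = ρ.ρ τ (ρ.ρ t (ρ.ρ τ⁻¹ v) - ρ.ρ τ⁻¹ v) := by
    have h2 : ρ.ρ τ (ρ.ρ τ⁻¹ v) = v := by
      rw [← Module.End.mul_apply, ← map_mul, mul_inv_cancel, map_one, Module.End.one_apply]
    rw [map_sub, h2, hs', map_mul, map_mul, Module.End.mul_apply, Module.End.mul_apply]
  rw [e]
  exact functional_mem_inertiaIdeal ρ P ht (ρ.ρ τ⁻¹ v) (g.comp (ρ.ρ τ))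

/-- the entry ideal of `I_P`, `P ∣ q`, is contained in helper22's `𝔞_q` -/
theorem inertiaIdeal_le_augInertiaIdeal {q : ℕ} (P : ValuationSubring Qb)
    (hP : P.LiesOverPrime q) :
    inertiaIdeal ρ P ≤ Fermat.Agent.GE2.AugQuot.inertiaIdeal ρ {q} := by
  rw [inertiaIdeal, Ideal.span_le]
  rintro _ ⟨s, hs, i, j, rfl⟩
  have h := Fermat.Agent.GE2.AugQuot.apply_sub_mem_inertiaIdeal ρ (Finset.mem_singleton_self q) hP
    hs (stdBasis ρ j) ((stdBasis ρ).coord i)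
  have e : (mat ρ s - 1) i j = (stdBasis ρ).coord i (ρ.ρ s (stdBasis ρ j) - stdBasis ρ j) := by
    rw [Matrix.sub_apply, mat, LinearMap.toMatrix_apply, map_sub, Module.Basis.coord_apply,
      Module.Basis.coord_apply, Module.Basis.repr_self, Matrix.one_apply,
      Finsupp.single_apply]
    by_cases hij : i = j
    · rw [if_pos hij, if_pos hij.symm]
    · rw [if_neg hij, if_neg (Ne.symm hij)]
  rw [SetLike.mem_coe, e]
  exact h

/-- **the two inertia ideals agree** -/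
theorem augInertiaIdeal_eq {q : ℕ} (hq : q.Prime) (P : ValuationSubring Qb)
    (hP : P.LiesOverPrime q) :
    Fermat.Agent.GE2.AugQuot.inertiaIdeal ρ {q} = inertiaIdeal ρ P :=
  le_antisymm (augInertiaIdeal_le ρ hq P hP) (inertiaIdeal_le_augInertiaIdeal ρ P hP)

/-- **the binder `hunr` of `card_cotangent_le_of_galois`**: if `ρ ⊗_π B` is unramified at `q`,
the matrices of inertia at `P ∣ q` become trivial under `π`. -/
theorem map_mat_eq_one_of_isEquiv {B : Type} [CommRing B] [IsLocalRing B] (π : A →+* B)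
    (hπ : IsLocalHom π) (ρ₀ : GaloisRepAdic B) (he : (ρ.baseChangeAlong π hπ).IsEquiv ρ₀)
    {q : ℕ} (hunr : ρ₀.IsUnramifiedAt q) (P : ValuationSubring Qb) (hP : P.LiesOverPrime q)
    {s : GQ} (hs : s ∈ P.inertiaSubgroupIn ℚ) : (mat ρ s).map π = 1 := by
  have hle : inertiaIdeal ρ P ≤ RingHom.ker π :=
    (inertiaIdeal_le_augInertiaIdeal ρ P hP).trans
      (Fermat.Agent.GE2.AugQuot.inertiaIdeal_le_ker ρ {q} π hπ ρ₀ he
        (fun q' hq' => by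
          obtain rfl : q' = q := Finset.mem_singleton.mp hq'
          exact hunr))
  ext i j
  have h1 : π ((mat ρ s - 1) i j) = 0 := hle (entry_mem_inertiaIdeal ρ P hs i j)
  rw [Matrix.sub_apply, map_sub, sub_eq_zero] at h1
  rw [Matrix.map_apply, h1]
  by_cases hij : i = j
  · subst hij
    rw [Matrix.one_apply_eq, Matrix.one_apply_eq, map_one]
  · rw [Matrix.one_apply_ne hij, Matrix.one_apply_ne hij, map_zero]

end Bridge

/-! ### `q` is a unit of `𝒪` -/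

/-- a prime `q ≠ p` is a unit in a local ring of residue characteristic `p` -/
theorem isUnit_natCast_of_ne {O : Type*} [CommRing O] [IsLocalRing O] {p q : ℕ} (hp : p.Prime)
    (hq : q.Prime) (hpq : p ≠ q) (hpO : (p : O) ∈ maximalIdeal O) : IsUnit (q : O) := by
  by_contra hnu
  have hqO : (q : O) ∈ maximalIdeal O := (mem_maximalIdeal _).mpr hnu
  have hcop : IsCoprime (q : ℤ) (p : ℤ) :=
    Nat.isCoprime_iff_coprime.mpr ((Nat.coprime_primes hq hp).mpr hpq.symm)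
  obtain ⟨a, b, hab⟩ := hcop
  have h1 : ((a * q + b * p : ℤ) : O) = 1 := by rw [hab, Int.cast_one]
  have h2 : (1 : O) ∈ maximalIdeal O := by
    rw [← h1]
    push_cast
    exact Ideal.add_mem _ (Ideal.mul_mem_left _ _ hqO) (Ideal.mul_mem_left _ _ hpO)
  exact (maximalIdeal.isMaximal O).ne_top ((Ideal.eq_top_iff_one _).mpr h2)

/-! ### the classifying surjection and the growth step -/

section Univ

variable {𝒪 : Type} [CommRing 𝒪] [IsDomain 𝒪] [IsDiscreteValuationRing 𝒪]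
  [IsAdicComplete (maximalIdeal 𝒪) 𝒪]
  {ρbar : ResidualGaloisRep (ResidueField 𝒪)}
  {𝒟 𝒟' : ∀ ⦃A : Type⦄ [CommRing A] [IsLocalRing A] [Algebra 𝒪 A], GaloisRepAdic A → Prop}
  (D : GaloisRep.DeformationRingData 𝒪 ρbar 𝒟) (D' : GaloisRep.DeformationRingData 𝒪 ρbar 𝒟')

/-- `𝒪` covers its own residue field -/
theorem residue_cover_self :
    Surjective (IsLocalRing.residue 𝒪 ∘ algebraMap 𝒪 𝒪) := fun x => by
  obtain ⟨y, rfl⟩ := IsLocalRing.residue_surjective x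
  exact ⟨y, rfl⟩

/-- **the classifying surjection `f : R_{Σ ∪ q} ↠ R_Σ`**, compatible with the augmentations of an
`𝒪`-valued deformation `ρ₀` of type `𝒟`, with `ker f` inside the entry ideal of `I_P`. -/
theorem exists_augmented_surjection (h𝒟' : GaloisRep.IsDeformationCondition 𝒪 𝒟')
    {q : ℕ} (hq : q.Prime)
    (hresq : D'.ρ.residual.IsUnramifiedAt q)
    (hDD' : 𝒟' D.ρ) (hDunr : D.ρ.IsUnramifiedAt q)
    (h0 : ∀ (R' : Type) [CommRing R'] [IsLocalRing R'] [Algebra 𝒪 R'] (ρ : GaloisRepAdic R'),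
      𝒟' ρ → ρ.IsUnramifiedAt q → 𝒟 ρ)
    (ρ₀ : GaloisRepAdic 𝒪)
    (π : D.R →ₐ[𝒪] 𝒪) (hπ : IsLocalHom (π : D.R →+* 𝒪))
    (heπ : (D.ρ.baseChangeAlong (π : D.R →+* 𝒪) hπ).IsEquiv ρ₀)
    (π' : D'.R →ₐ[𝒪] 𝒪) (hπ' : IsLocalHom (π' : D'.R →+* 𝒪))
    (heπ' : (D'.ρ.baseChangeAlong (π' : D'.R →+* 𝒪) hπ').IsEquiv ρ₀)
    (P : ValuationSubring Qb) (hP : P.LiesOverPrime q) :
    ∃ f : D'.R →ₐ[𝒪] D.R, Surjective f ∧ π.comp f = π' ∧
      RingHom.ker (f : D'.R →+* D.R) ≤ inertiaIdeal D'.ρ P := by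
  obtain ⟨f, hf, hfs, hfk, hef⟩ :=
    Fermat.Agent.GE2.AugQuot.exists_augQuot_inertia_of_isDeformationCondition D D' h𝒟' {q}
      (fun q' hq' => by
        obtain rfl : q' = q := Finset.mem_singleton.mp hq'
        exact hresq)
      hDD'
      (fun q' hq' => by
        obtain rfl : q' = q := Finset.mem_singleton.mp hq'
        exact hDunr)
      (fun R' _ _ _ ρ h1 h2 => h0 R' ρ h1 (h2 q (Finset.mem_singleton_self q)))
  refine ⟨f, hfs, ?_, ?_⟩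
  · -- uniqueness of the classifying map of `ρ₀`
    have hloc𝒪 : IsLocalHom (algebraMap 𝒪 𝒪) := ⟨fun _ h => h⟩
    have hπ's : Surjective π' := fun x => ⟨algebraMap 𝒪 D'.R x, by rw [AlgHom.commutes]; rfl⟩
    have h𝒟'π' : 𝒟' (D'.ρ.baseChangeAlong (π' : D'.R →+* 𝒪) hπ') :=
      Fermat.Agent.GE2.AugQuot.of_surjective_baseChange h𝒟' D'.instIsLocalHom
        D'.residue_surjective hloc𝒪 residue_cover_self π' hπ' hπ's D'.ρ D'.isOfType
    have hloc : IsLocalHom ((π.comp f : D'.R →ₐ[𝒪] 𝒪) : D'.R →+* 𝒪) :=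
      Fermat.Agent.GP.Top.isLocalHom_comp' (f : D'.R →+* D.R) hf (π : D.R →+* 𝒪) hπ
    refine Fermat.Agent.GP.Tan.UnivInj.algHom_eq_of_isEquiv D' residue_cover_self (π.comp f) π'
      hloc hπ' h𝒟'π' ?_
    obtain ⟨e1⟩ := Fermat.Agent.GP.Top.baseChangeAlong_comp_isEquiv D'.ρ (f : D'.R →+* D.R) hf
      (π : D.R →+* 𝒪) hπ
    obtain ⟨e2⟩ := hef
    obtain ⟨e3⟩ := heπ
    obtain ⟨e4⟩ := heπ'
    exact ⟨((e1.symm.trans (e2.baseChangeAlong (π : D.R →+* 𝒪) hπ)).trans e3).trans e4.symm⟩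
  · rw [hfk]
    exact augInertiaIdeal_le D'.ρ hq P hP

variable [Finite (ResidueField 𝒪)]

/-- **E9-GROWTH-PLUG: the `hgrow` clause of `GE9.Ind.chain` from two `DeformationRingData`.**
`R = R_Σ`, `R' = R_{Σ ∪ q}` (`𝒟 = 𝒟' ∧ unramified at q`), `ρ₀` an `𝒪`-valued deformation of type
`𝒟` with augmentations `π`, `π'`, `φ` a Frobenius at `P ∣ q ≠ p`:
`#Φ_{R'} ≤ #Φ_R · #(𝒪 ⧸ (q − 1)((1 + q)² − tr ρ₀(φ)²))`. -/
theorem hgrow_of_deformationRingData (h𝒟' : GaloisRep.IsDeformationCondition 𝒪 𝒟')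
    {p q : ℕ} (hp : p.Prime) (hq : q.Prime) (hpq : p ≠ q)
    (hcyc : D'.ρ.DetIsCyclotomic p)
    (hresq : D'.ρ.residual.IsUnramifiedAt q)
    (hDD' : 𝒟' D.ρ) (hDunr : D.ρ.IsUnramifiedAt q)
    (h0 : ∀ (R' : Type) [CommRing R'] [IsLocalRing R'] [Algebra 𝒪 R'] (ρ : GaloisRepAdic R'),
      𝒟' ρ → ρ.IsUnramifiedAt q → 𝒟 ρ)
    (ρ₀ : GaloisRepAdic 𝒪) (hρ₀unr : ρ₀.IsUnramifiedAt q)
    (π : D.R →ₐ[𝒪] 𝒪) (hπ : IsLocalHom (π : D.R →+* 𝒪))
    (heπ : (D.ρ.baseChangeAlong (π : D.R →+* 𝒪) hπ).IsEquiv ρ₀)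
    (π' : D'.R →ₐ[𝒪] 𝒪) (hπ' : IsLocalHom (π' : D'.R →+* 𝒪))
    (heπ' : (D'.ρ.baseChangeAlong (π' : D'.R →+* 𝒪) hπ').IsEquiv ρ₀)
    (P : ValuationSubring Qb) (hP : P.LiesOverPrime q) {φ : GQ} (hφ : P.IsFrobeniusAt φ q)
    (hc : ((q : 𝒪) - 1) * ((1 + (q : 𝒪)) ^ 2 - (ρ₀.trace φ) ^ 2) ≠ 0) :
    Finite (RingHom.ker π).Cotangent →
      Finite (RingHom.ker π').Cotangent ∧
        Fermat.Agent.GE9.Ind.tanCard π' ≤ Fermat.Agent.GE9.Ind.tanCard π *
          Nat.card (𝒪 ⧸ Ideal.span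
            {((q : 𝒪) - 1) * ((1 + (q : 𝒪)) ^ 2 - (ρ₀.trace φ) ^ 2)}) := by
  intro hfin
  obtain ⟨f, hfs, hcomp, hker⟩ := exists_augmented_surjection D D' h𝒟' hq hresq hDD' hDunr h0 ρ₀
    π hπ heπ π' hπ' heπ' P hP
  have hpR : (p : D'.R) ∈ maximalIdeal D'.R := hcyc.1
  have hp𝒪 : (p : 𝒪) ∈ maximalIdeal 𝒪 := by
    have h1 : π' (p : D'.R) = (p : 𝒪) := map_natCast π' p
    rw [← h1]
    exact (mem_maximalIdeal _).mpr fun hu =>
      ((mem_maximalIdeal _).mp hpR) (hπ'.map_nonunit _ hu)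
  have hq𝒪 : IsUnit (q : 𝒪) := isUnit_natCast_of_ne hp hq hpq hp𝒪
  have hunr : ∀ s ∈ P.inertiaSubgroupIn ℚ, (mat D'.ρ s).map π' = 1 := fun s hs =>
    map_mat_eq_one_of_isEquiv D'.ρ (π' : D'.R →+* 𝒪) hπ' ρ₀ heπ' hρ₀unr P hP hs
  have hdet : ∀ s ∈ P.inertiaSubgroupIn ℚ, LinearMap.det (D'.ρ.ρ s) = 1 := fun s hs =>
    Fermat.Agent.GB.E2.TamePair.det_eq_one_of_mem_inertia D'.ρ P hcyc hp hq hpq hP hs
  have hdetφ : π' (LinearMap.det (D'.ρ.ρ φ)) = (q : 𝒪) := by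
    rw [Fermat.Agent.GB.E2.TamePair.det_eq_natCast_of_isFrobeniusAt D'.ρ P hcyc hp hq hpq hP hφ,
      map_natCast]
  have htr : π' (LinearMap.trace D'.R D'.ρ.V (D'.ρ.ρ φ)) = ρ₀.trace φ := by
    have h1 := Fermat.Agent.S53_helper35.trace_baseChangeAlong (π' : D'.R →+* 𝒪) hπ' D'.ρ φ
    have h2 := Fermat.Agent.S53_helper35.trace_eq_of_isEquiv heπ' φ
    rw [← h2, h1]
    rfl
  have hc' : ((q : 𝒪) - 1) * ((1 + (q : 𝒪)) ^ 2 -
      (π' (LinearMap.trace D'.R D'.ρ.V (D'.ρ.ρ φ))) ^ 2) ≠ 0 := by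
    rw [htr]
    exact hc
  -- finiteness, from helper63's `Fin.lean`, and the bound, from file 1
  haveI : Fact p.Prime := ⟨hp⟩
  obtain ⟨τ₀, hτ₀⟩ := Fermat.Agent.GB.E2.TameGenAdic.exists_isTameGenerator P hq hP p hpq
  have hle := augIdeal_le_maximalIdeal π'
  have hentries : ∀ s ∈ P.inertiaSubgroupIn ℚ, ∀ i j, (mat D'.ρ s - 1) i j ∈ augIdeal π' := by
    intro s hs i j
    have h1 := congrFun (congrFun (hunr s hs) i) j
    rw [Matrix.map_apply] at h1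
    rw [mem_augIdeal, Matrix.sub_apply, map_sub, h1]
    by_cases hij : i = j
    · subst hij
      rw [Matrix.one_apply_eq, Matrix.one_apply_eq, map_one, sub_self]
    · rw [Matrix.one_apply_ne hij, Matrix.one_apply_ne hij, map_zero, sub_self]
  have hunr' : ∀ s ∈ P.inertiaSubgroupIn ℚ, ∀ v : D'.ρ.V,
      D'.ρ.ρ s v - v ∈ maximalIdeal D'.R • (⊤ : Submodule D'.R D'.ρ.V) := by
    intro s hs v
    exact Submodule.smul_mono_left hle (apply_sub_mem_of_entries D'.ρ _ (hentries s hs) v)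
  have hfin' : Finite (RingHom.ker π').Cotangent := by
    have htame := Fermat.Agent.GB.E2.TameRelAdic.tame_relation D'.ρ P hp hpR hq hpq hP hφ hunr' τ₀
      hτ₀.mem_inertia
    have hrel : mat D'.ρ φ * mat D'.ρ τ₀ = mat D'.ρ τ₀ ^ q * mat D'.ρ φ := by
      have h1 : mat D'.ρ (φ * τ₀ * φ⁻¹) = mat D'.ρ τ₀ ^ q := by
        rw [mat, htame, toMatrix_pow]
        rfl
      have h2 : mat D'.ρ φ⁻¹ * mat D'.ρ φ = 1 := by
        rw [← mat_mul, inv_mul_cancel, mat_one]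
      rw [← h1, mat_mul, mat_mul, mul_assoc, h2, mul_one]
    have hdetτ : (mat D'.ρ τ₀).det = 1 := by
      rw [det_mat]
      exact hdet τ₀ hτ₀.mem_inertia
    have hJ := inertiaIdeal_eq_entryIdeal D'.ρ hτ₀ hp hpR hunr'
    have hker' : RingHom.ker (f : D'.R →+* D.R) ≤ entryIdeal (mat D'.ρ τ₀) := hJ ▸ hker
    have hdetF : (F0 π' (mat D'.ρ φ)).det = (q : 𝒪) := by
      have : (F0 π' (mat D'.ρ φ)).det = π' (mat D'.ρ φ).det := by
        rw [F0, Matrix.det_fin_two, Matrix.det_fin_two, map_sub, map_mul, map_mul]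
        rfl
      rw [this, det_mat, hdetφ]
    have htr' : (F0 π' (mat D'.ρ φ)).trace = π' (LinearMap.trace D'.R D'.ρ.V (D'.ρ.ρ φ)) := by
      rw [← trace_mat, F0, Matrix.trace_fin_two, Matrix.trace_fin_two, map_add]
      rfl
    have hcw : wilesFactor (F0 π' (mat D'.ρ φ)) (q : 𝒪) ≠ 0 := by
      rw [wilesFactor, htr']
      exact hc'
    haveI : Finite (RingHom.ker π).Cotangent := hfin
    exact (finite_and_card_cotangent_le_mul_wiles (F := mat D'.ρ φ) (T := mat D'.ρ τ₀) (q := q)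
      π' π f hfs hcomp (hunr τ₀ hτ₀.mem_inertia) hdetτ hrel hker' hq𝒪 hdetF hcw).1
  refine ⟨hfin', ?_⟩
  haveI : Finite (augIdeal π).Cotangent := hfin
  have key := card_cotangent_le_of_galois D'.ρ π' π f hfs hcomp hp hpR hq hpq P hP hφ hunr hdet
    hker hq𝒪 hdetφ hc'
  rw [htr] at key
  rw [mul_comm]
  exact key

/-- the same with the constant spelled `#(𝒪 ⧸ (wilesFactor f₀ q))`, `f₀` any matrix with
`tr f₀ = tr ρ₀(Frob_q)` (the `c n` of helper2's `GE9.Eta.card_congMod_growth_three`). -/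
theorem hgrow_of_deformationRingData_wiles (h𝒟' : GaloisRep.IsDeformationCondition 𝒪 𝒟')
    {p q : ℕ} (hp : p.Prime) (hq : q.Prime) (hpq : p ≠ q)
    (hcyc : D'.ρ.DetIsCyclotomic p)
    (hresq : D'.ρ.residual.IsUnramifiedAt q)
    (hDD' : 𝒟' D.ρ) (hDunr : D.ρ.IsUnramifiedAt q)
    (h0 : ∀ (R' : Type) [CommRing R'] [IsLocalRing R'] [Algebra 𝒪 R'] (ρ : GaloisRepAdic R'),
      𝒟' ρ → ρ.IsUnramifiedAt q → 𝒟 ρ)
    (ρ₀ : GaloisRepAdic 𝒪) (hρ₀unr : ρ₀.IsUnramifiedAt q)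
    (π : D.R →ₐ[𝒪] 𝒪) (hπ : IsLocalHom (π : D.R →+* 𝒪))
    (heπ : (D.ρ.baseChangeAlong (π : D.R →+* 𝒪) hπ).IsEquiv ρ₀)
    (π' : D'.R →ₐ[𝒪] 𝒪) (hπ' : IsLocalHom (π' : D'.R →+* 𝒪))
    (heπ' : (D'.ρ.baseChangeAlong (π' : D'.R →+* 𝒪) hπ').IsEquiv ρ₀)
    (P : ValuationSubring Qb) (hP : P.LiesOverPrime q) {φ : GQ} (hφ : P.IsFrobeniusAt φ q)
    (f₀ : Matrix (Fin 2) (Fin 2) 𝒪) (hf₀ : f₀.trace = ρ₀.trace φ)
    (hc : wilesFactor f₀ (q : 𝒪) ≠ 0) :
    Finite (RingHom.ker π).Cotangent →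
      Finite (RingHom.ker π').Cotangent ∧
        Fermat.Agent.GE9.Ind.tanCard π' ≤ Fermat.Agent.GE9.Ind.tanCard π *
          Nat.card (𝒪 ⧸ Ideal.span {wilesFactor f₀ (q : 𝒪)}) := by
  have e : wilesFactor f₀ (q : 𝒪) =
      ((q : 𝒪) - 1) * ((1 + (q : 𝒪)) ^ 2 - (ρ₀.trace φ) ^ 2) := by
    rw [wilesFactor, hf₀]
  rw [e] at hc ⊢
  exact hgrow_of_deformationRingData D D' h𝒟' hp hq hpq hcyc hresq hDD' hDunr h0 ρ₀ hρ₀unr π hπ heπ
    π' hπ' heπ' P hP hφ hc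

end Univ

end Fermat.Agent.GE9.CotGrowth
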