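/-
GATE-E / E9-GROWTH-PLUG (helper73), file 3: **the `hgrow` clause of `GE9.Ind.chain` for the
deformation problems `𝒟^{fl}_Σ`, `𝒟^{so}_Σ` of the engine contract** (helper10's
`GE/Graph/RTStmt`: `condFL 𝒪 p Smin Sig`, `condSO 𝒪 p Smin Sig`), step `Σ ↦ insert q Σ`.

Everything is discharged except the genuinely arithmetic inputs:
`ρbar` unramified at `q`, the `𝒪`-point `ρ₀` of type `𝒟_Σ` with its two classifying maps, a
Frobenius `φ` at a place `P ∣ q`, and `c_q ≠ 0` (helper46 `GE9/Growth/CqNe`).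

* `residual_isUnramifiedAt_of_rhobar` : the universal deformation is residually unramified where
  `ρbar` is;
* `condFL_insert_iff`, `condSO_insert_iff` : `𝒟_Σ ⇔ 𝒟_{insert q Σ} ∧ unramified at q`
  (`q ∉ Smin ∪ Σ` prime);
* **`hgrow_condFL`**, **`hgrow_condSO`** : the step.
-/
import Mathlib
import Fermat.Agent.GE9.CotGrowth.Univ
import Fermat.Agent.GE.Graph.RTStmt
import Fermat.Agent.GB.Def.CondStrictPkg
import Fermat.Agent.GB.Def.CondFlatAtom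

set_option autoImplicit false
set_option linter.unusedSectionVars false
set_option linter.style.haveILetI false

namespace Fermat.Agent.GE9.CotGrowth

open IsLocalRing Module Matrix Function
open Fermat.Agent.Common_helper32 Fermat.Agent.GE9.TanGrow Fermat.Agent.GE.Graph

/-! ### residual unramifiedness -/

section Residual

variable {𝒪 : Type} [CommRing 𝒪] [IsDomain 𝒪] [IsDiscreteValuationRing 𝒪]
  [IsAdicComplete (maximalIdeal 𝒪) 𝒪]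
  {ρbar : ResidualGaloisRep (ResidueField 𝒪)}
  {𝒟 : ∀ ⦃A : Type⦄ [CommRing A] [IsLocalRing A] [Algebra 𝒪 A], GaloisRepAdic A → Prop}
  (D : GaloisRep.DeformationRingData 𝒪 ρbar 𝒟)

/-- the residual representation of a universal deformation is unramified where `ρ̄` is -/
theorem residual_isUnramifiedAt_of_rhobar {q : ℕ} (h : ρbar.IsUnramifiedAt q) :
    D.ρ.residual.IsUnramifiedAt q := by
  intro P hP σ hσ
  obtain ⟨e⟩ := D.residual_isEquiv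
  have h1 : ρbar.ρ σ = 1 := h P hP σ hσ
  have h2 : (ρbar.baseChangeAlong (ResidueField.map (algebraMap 𝒪 D.R))).ρ σ = 1 := by
    letI : Algebra (ResidueField 𝒪) (ResidueField D.R) :=
      (ResidueField.map (algebraMap 𝒪 D.R)).toAlgebra
    show (ρbar.ρ σ).baseChange (ResidueField D.R) = 1
    rw [h1, LinearMap.baseChange_one]
  refine LinearMap.ext fun x => ?_
  apply e.toLinearEquiv.injective
  rw [e.map_apply, h2, Module.End.one_apply, Module.End.one_apply]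

end Residual

/-! ### `Σ ↦ insert q Σ` -/

section Insert

variable {𝒪 : Type} [CommRing 𝒪] {p q : ℕ} {Smin Sig : Finset ℕ}

theorem union_insert_eq : Smin ∪ insert q Sig = insert q (Smin ∪ Sig) := by
  rw [Finset.union_insert]

/-- "unramified outside `Smin ∪ Σ`" ⇔ "unramified outside `Smin ∪ insert q Σ`" ∧ "unramified at
`q`" -/
theorem unramifiedOutside_insert_iff {A : Type} [CommRing A] [IsLocalRing A]
    (ρ : GaloisRepAdic A) (hq : q.Prime) :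
    (∀ r : ℕ, r.Prime → r ∉ Smin ∪ Sig → ρ.IsUnramifiedAt r) ↔
      (∀ r : ℕ, r.Prime → r ∉ Smin ∪ insert q Sig → ρ.IsUnramifiedAt r) ∧
        (q ∉ Smin ∪ Sig → ρ.IsUnramifiedAt q) := by
  constructor
  · intro h
    refine ⟨fun r hr hrS => h r hr fun hmem => hrS ?_, fun hqS => h q hq hqS⟩
    rw [union_insert_eq]
    exact Finset.mem_insert_of_mem hmem
  · rintro ⟨h1, h2⟩ r hr hrS
    by_cases hrq : r = q
    · subst hrq
      exact h2 hrS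
    · refine h1 r hr fun hmem => hrS ?_
      rw [union_insert_eq] at hmem
      exact (Finset.mem_insert.mp hmem).resolve_left hrq

/-- `𝒟^{fl}_Σ ⇔ 𝒟^{fl}_{insert q Σ} ∧ unramified at q` -/
theorem condFL_insert_iff {A : Type} [CommRing A] [IsLocalRing A] [Algebra 𝒪 A]
    (ρ : GaloisRepAdic A) (hq : q.Prime) (hqS : q ∉ Smin ∪ Sig) :
    condFL 𝒪 p Smin Sig ρ ↔ condFL 𝒪 p Smin (insert q Sig) ρ ∧ ρ.IsUnramifiedAt q := by
  unfold condFL GaloisRep.flatCondition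
  rw [unramifiedOutside_insert_iff ρ hq]
  constructor
  · rintro ⟨⟨h1, h2, h3, h4⟩, h5⟩
    exact ⟨⟨⟨h1, h2, h3⟩, h5⟩, h4 hqS⟩
  · rintro ⟨⟨⟨h1, h2, h3⟩, h5⟩, h4⟩
    exact ⟨⟨h1, h2, h3, fun _ => h4⟩, h5⟩

/-- `𝒟^{so}_Σ ⇔ 𝒟^{so}_{insert q Σ} ∧ unramified at q` -/
theorem condSO_insert_iff {A : Type} [CommRing A] [IsLocalRing A] [Algebra 𝒪 A]
    (ρ : GaloisRepAdic A) (hq : q.Prime) (hqS : q ∉ Smin ∪ Sig) :
    condSO 𝒪 p Smin Sig ρ ↔ condSO 𝒪 p Smin (insert q Sig) ρ ∧ ρ.IsUnramifiedAt q := by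
  unfold condSO GaloisRep.strictOrdinaryCondition
  rw [unramifiedOutside_insert_iff ρ hq]
  constructor
  · rintro ⟨⟨h1, h2, h3, h4⟩, h5⟩
    exact ⟨⟨⟨h1, h2, h3⟩, h5⟩, h4 hqS⟩
  · rintro ⟨⟨⟨h1, h2, h3⟩, h5⟩, h4⟩
    exact ⟨⟨h1, h2, h3, fun _ => h4⟩, h5⟩

end Insert

/-! ### the step -/

section Step

variable {𝒪 : Type} [CommRing 𝒪] [IsDomain 𝒪] [IsDiscreteValuationRing 𝒪]
  [IsAdicComplete (maximalIdeal 𝒪) 𝒪] [Finite (ResidueField 𝒪)]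
  {ρbar : ResidualGaloisRep (ResidueField 𝒪)} {p q : ℕ} {Smin Sig : Finset ℕ}

/-- **the `hgrow` clause of `Ind.chain` for `𝒟^{fl}`, step `Σ ↦ insert q Σ`.** -/
theorem hgrow_condFL
    (D : GaloisRep.DeformationRingData 𝒪 ρbar (condFL 𝒪 p Smin Sig))
    (D' : GaloisRep.DeformationRingData 𝒪 ρbar (condFL 𝒪 p Smin (insert q Sig)))
    (hp : p.Prime) (hq : q.Prime) (hpq : p ≠ q) (hqS : q ∉ Smin ∪ Sig)
    (hρbar : ρbar.IsUnramifiedAt q)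
    (ρ₀ : GaloisRepAdic 𝒪) (hρ₀ : condFL 𝒪 p Smin Sig ρ₀)
    (π : D.R →ₐ[𝒪] 𝒪) (hπ : IsLocalHom (π : D.R →+* 𝒪))
    (heπ : (D.ρ.baseChangeAlong (π : D.R →+* 𝒪) hπ).IsEquiv ρ₀)
    (π' : D'.R →ₐ[𝒪] 𝒪) (hπ' : IsLocalHom (π' : D'.R →+* 𝒪))
    (heπ' : (D'.ρ.baseChangeAlong (π' : D'.R →+* 𝒪) hπ').IsEquiv ρ₀)
    (P : ValuationSubring Qb) (hP : P.LiesOverPrime q) {φ : GQ} (hφ : P.IsFrobeniusAt φ q)
    (f₀ : Matrix (Fin 2) (Fin 2) 𝒪) (hf₀ : f₀.trace = ρ₀.trace φ)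
    (hc : wilesFactor f₀ (q : 𝒪) ≠ 0) :
    Finite (RingHom.ker π).Cotangent →
      Finite (RingHom.ker π').Cotangent ∧
        Fermat.Agent.GE9.Ind.tanCard π' ≤ Fermat.Agent.GE9.Ind.tanCard π *
          Nat.card (𝒪 ⧸ Ideal.span {wilesFactor f₀ (q : 𝒪)}) := by
  haveI : Fact p.Prime := ⟨hp⟩
  have h𝒟' : GaloisRep.IsDeformationCondition 𝒪 (condFL 𝒪 p Smin (insert q Sig)) :=
    Fermat.Agent.GB.Def.Cond.Atom.isDeformationCondition_FL_of_flat p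
      (Fermat.Agent.GB.Def.CondFlat.isDeformationCondition_isFlatAt p 𝒪) (Smin ∪ insert q Sig) Smin
  exact hgrow_of_deformationRingData_wiles D D' h𝒟' hp hq hpq D'.isOfType.1.1
    (residual_isUnramifiedAt_of_rhobar D' hρbar)
    ((condFL_insert_iff D.ρ hq hqS).mp D.isOfType).1
    ((condFL_insert_iff D.ρ hq hqS).mp D.isOfType).2
    (fun R' _ _ _ ρ h1 h2 => (condFL_insert_iff ρ hq hqS).mpr ⟨h1, h2⟩)
    ρ₀ ((condFL_insert_iff ρ₀ hq hqS).mp hρ₀).2 π hπ heπ π' hπ' heπ' P hP hφ f₀ hf₀ hc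

/-- **the `hgrow` clause of `Ind.chain` for `𝒟^{so}`, step `Σ ↦ insert q Σ`** (`p` odd). -/
theorem hgrow_condSO
    (D : GaloisRep.DeformationRingData 𝒪 ρbar (condSO 𝒪 p Smin Sig))
    (D' : GaloisRep.DeformationRingData 𝒪 ρbar (condSO 𝒪 p Smin (insert q Sig)))
    (hp : p.Prime) (hp2 : p ≠ 2) (hq : q.Prime) (hpq : p ≠ q) (hqS : q ∉ Smin ∪ Sig)
    (hρbar : ρbar.IsUnramifiedAt q)
    (ρ₀ : GaloisRepAdic 𝒪) (hρ₀ : condSO 𝒪 p Smin Sig ρ₀)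
    (π : D.R →ₐ[𝒪] 𝒪) (hπ : IsLocalHom (π : D.R →+* 𝒪))
    (heπ : (D.ρ.baseChangeAlong (π : D.R →+* 𝒪) hπ).IsEquiv ρ₀)
    (π' : D'.R →ₐ[𝒪] 𝒪) (hπ' : IsLocalHom (π' : D'.R →+* 𝒪))
    (heπ' : (D'.ρ.baseChangeAlong (π' : D'.R →+* 𝒪) hπ').IsEquiv ρ₀)
    (P : ValuationSubring Qb) (hP : P.LiesOverPrime q) {φ : GQ} (hφ : P.IsFrobeniusAt φ q)
    (f₀ : Matrix (Fin 2) (Fin 2) 𝒪) (hf₀ : f₀.trace = ρ₀.trace φ)
    (hc : wilesFactor f₀ (q : 𝒪) ≠ 0) :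
    Finite (RingHom.ker π).Cotangent →
      Finite (RingHom.ker π').Cotangent ∧
        Fermat.Agent.GE9.Ind.tanCard π' ≤ Fermat.Agent.GE9.Ind.tanCard π *
          Nat.card (𝒪 ⧸ Ideal.span {wilesFactor f₀ (q : 𝒪)}) := by
  haveI : Fact p.Prime := ⟨hp⟩
  have h𝒟' : GaloisRep.IsDeformationCondition 𝒪 (condSO 𝒪 p Smin (insert q Sig)) :=
    Fermat.Agent.GB.Def.Cond.isDeformationCondition_SO 𝒪 p hp2 (Smin ∪ insert q Sig) Smin
  exact hgrow_of_deformationRingData_wiles D D' h𝒟' hp hq hpq D'.isOfType.1.1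
    (residual_isUnramifiedAt_of_rhobar D' hρbar)
    ((condSO_insert_iff D.ρ hq hqS).mp D.isOfType).1
    ((condSO_insert_iff D.ρ hq hqS).mp D.isOfType).2
    (fun R' _ _ _ ρ h1 h2 => (condSO_insert_iff ρ hq hqS).mpr ⟨h1, h2⟩)
    ρ₀ ((condSO_insert_iff ρ₀ hq hqS).mp hρ₀).2 π hπ heπ π' hπ' heπ' P hP hφ f₀ hf₀ hc

end Step

end Fermat.Agent.GE9.CotGrowth
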