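/-
GATE-E / E9-GROWTH-PLUG (helper73), file 4: **the binder `hgrow` of helper63's `Ind.RTNum.next`**
(`GE9/Ind/RT.lean`, the E9 side of the engine contract) for the step `Σ ↦ insert q Σ` of
`condFL` / `condSO`, SEAM PLUG-TEST GROWTH → IND-RT.

`Y : RTNum ρbar (cond 𝒪 p Smin Sig) d` the previous stage (`R_Σ = T_Σ`, modular point `Y.πO`),
raw data of the next stage `D'`, `φ' : D'.R → T'`, `ρT'`, `πO' : T' → 𝒪`, and the ONE Hecke-side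
input `hsame : ρT' ⊗_{πO'} 𝒪 ≅ ρT ⊗_{πO} 𝒪` (the two modular points carry the same Galois
representation — same eigenform, Carayol / Chebotarev).  Output: `hgrow` of `RTNum.next` VERBATIM
with `c := #(𝒪 ⧸ (wilesFactor f₀ q))`, `tr f₀ = πO(tr ρT(Frob_q))`.

* `isEquiv_point` : `D'.ρ ⊗_{πO' ∘ φ'} 𝒪 ≅ D.ρ ⊗_{πO ∘ φ} 𝒪` from `hsame`;
* `hgrow_next_condFL`, `hgrow_next_condSO`.
-/
import Mathlib
import Fermat.Agent.GE9.CotGrowth.Cond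
import Fermat.Agent.GE9.Ind.RT

set_option autoImplicit false
set_option linter.unusedSectionVars false
set_option linter.style.haveILetI false

namespace Fermat.Agent.GE9.CotGrowth

open IsLocalRing Module Matrix Function
open Fermat.Agent.Common_helper32 Fermat.Agent.GE9.TanGrow Fermat.Agent.GE.Graph
  Fermat.Agent.GE9.Ind

section Point

variable {𝒪 : Type} [CommRing 𝒪] [IsLocalRing 𝒪]
  {R T R' T' : Type} [CommRing R] [IsLocalRing R] [Algebra 𝒪 R] [CommRing T] [IsLocalRing T]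
  [Algebra 𝒪 T] [CommRing R'] [IsLocalRing R'] [Algebra 𝒪 R'] [CommRing T'] [IsLocalRing T']
  [Algebra 𝒪 T']

/-- the two modular points carry the same representation of the deformation rings -/
theorem isEquiv_point (ρR : GaloisRepAdic R) (ρT : GaloisRepAdic T) (ρR' : GaloisRepAdic R')
    (ρT' : GaloisRepAdic T')
    (φ : R →ₐ[𝒪] T) (hφ : IsLocalHom (φ : R →+* T))
    (hφρ : (ρR.baseChangeAlong (φ : R →+* T) hφ).IsEquiv ρT)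
    (φ' : R' →ₐ[𝒪] T') (hφ' : IsLocalHom (φ' : R' →+* T'))
    (hφρ' : (ρR'.baseChangeAlong (φ' : R' →+* T') hφ').IsEquiv ρT')
    (πO : T →ₐ[𝒪] 𝒪) (hπO : IsLocalHom (πO : T →+* 𝒪))
    (πO' : T' →ₐ[𝒪] 𝒪) (hπO' : IsLocalHom (πO' : T' →+* 𝒪))
    (hsame : (ρT'.baseChangeAlong (πO' : T' →+* 𝒪) hπO').IsEquiv
      (ρT.baseChangeAlong (πO : T →+* 𝒪) hπO))
    (hloc : IsLocalHom ((πO.comp φ : R →ₐ[𝒪] 𝒪) : R →+* 𝒪))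
    (hloc' : IsLocalHom ((πO'.comp φ' : R' →ₐ[𝒪] 𝒪) : R' →+* 𝒪)) :
    (ρR'.baseChangeAlong ((πO'.comp φ' : R' →ₐ[𝒪] 𝒪) : R' →+* 𝒪) hloc').IsEquiv
      (ρR.baseChangeAlong ((πO.comp φ : R →ₐ[𝒪] 𝒪) : R →+* 𝒪) hloc) := by
  obtain ⟨e1⟩ := Fermat.Agent.GP.Top.baseChangeAlong_comp_isEquiv ρR' (φ' : R' →+* T') hφ'
    (πO' : T' →+* 𝒪) hπO'
  obtain ⟨e2⟩ := hφρ'
  obtain ⟨e3⟩ := hsame
  obtain ⟨e4⟩ := hφρ
  obtain ⟨e5⟩ := Fermat.Agent.GP.Top.baseChangeAlong_comp_isEquiv ρR (φ : R →+* T) hφ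
    (πO : T →+* 𝒪) hπO
  exact ⟨(((e1.symm.trans (e2.baseChangeAlong (πO' : T' →+* 𝒪) hπO')).trans e3).trans
    (e4.symm.baseChangeAlong (πO : T →+* 𝒪) hπO)).trans e5⟩

/-- the trace at the modular point -/
theorem trace_point (ρR : GaloisRepAdic R) (ρT : GaloisRepAdic T)
    (φ : R →ₐ[𝒪] T) (hφ : IsLocalHom (φ : R →+* T))
    (hφρ : (ρR.baseChangeAlong (φ : R →+* T) hφ).IsEquiv ρT)
    (πO : T →ₐ[𝒪] 𝒪)
    (hloc : IsLocalHom ((πO.comp φ : R →ₐ[𝒪] 𝒪) : R →+* 𝒪)) (σ : GQ) :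
    (ρR.baseChangeAlong ((πO.comp φ : R →ₐ[𝒪] 𝒪) : R →+* 𝒪) hloc).trace σ =
      πO (ρT.trace σ) := by
  rw [Fermat.Agent.S53_helper35.trace_baseChangeAlong,
    ← Fermat.Agent.S53_helper35.trace_eq_of_isEquiv hφρ σ,
    Fermat.Agent.S53_helper35.trace_baseChangeAlong]
  rfl

end Point

section Next

variable {𝒪 : Type} [CommRing 𝒪] [IsDomain 𝒪] [IsDiscreteValuationRing 𝒪]
  [IsAdicComplete (maximalIdeal 𝒪) 𝒪] [Finite (ResidueField 𝒪)]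
  {ρbar : ResidualGaloisRep (ResidueField 𝒪)} {p q : ℕ} {Smin Sig : Finset ℕ}

/-- **the binder `hgrow` of `Ind.RTNum.next`, flat case**, step `Σ ↦ insert q Σ`. -/
theorem hgrow_next_condFL {d : ℕ} (Y : RTNum ρbar (condFL 𝒪 p Smin Sig) d)
    (D' : GaloisRep.DeformationRingData 𝒪 ρbar (condFL 𝒪 p Smin (insert q Sig)))
    {T' : Type} [CommRing T'] [IsLocalRing T'] [Algebra 𝒪 T'] (ρT' : GaloisRepAdic T')
    (φ' : D'.R →ₐ[𝒪] T') (φ'_local : IsLocalHom (φ' : D'.R →+* T'))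
    (φ'_ρ : (D'.ρ.baseChangeAlong (φ' : D'.R →+* T') φ'_local).IsEquiv ρT')
    (πO' : T' →ₐ[𝒪] 𝒪)
    (hπO : IsLocalHom (Y.πO : Y.rt.T →+* 𝒪)) (hπO' : IsLocalHom (πO' : T' →+* 𝒪))
    (hsame : (ρT'.baseChangeAlong (πO' : T' →+* 𝒪) hπO').IsEquiv
      (Y.rt.ρT.baseChangeAlong (Y.πO : Y.rt.T →+* 𝒪) hπO))
    (hp : p.Prime) (hq : q.Prime) (hpq : p ≠ q) (hqS : q ∉ Smin ∪ Sig)
    (hρbar : ρbar.IsUnramifiedAt q)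
    (P : ValuationSubring Qb) (hP : P.LiesOverPrime q) {φ : GQ} (hφ : P.IsFrobeniusAt φ q)
    (f₀ : Matrix (Fin 2) (Fin 2) 𝒪) (hf₀ : f₀.trace = Y.πO (Y.rt.ρT.trace φ))
    (hc : wilesFactor f₀ (q : 𝒪) ≠ 0) :
    Finite (RingHom.ker (Y.πO.comp Y.rt.φ)).Cotangent →
      Finite (RingHom.ker (πO'.comp φ')).Cotangent ∧
        tanCard (πO'.comp φ') ≤ tanCard (Y.πO.comp Y.rt.φ) *
          Nat.card (𝒪 ⧸ Ideal.span {wilesFactor f₀ (q : 𝒪)}) := by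
  haveI : Fact p.Prime := ⟨hp⟩
  have hloc : IsLocalHom ((Y.πO.comp Y.rt.φ : Y.rt.D.R →ₐ[𝒪] 𝒪) : Y.rt.D.R →+* 𝒪) :=
    Fermat.Agent.GP.Top.isLocalHom_comp' (Y.rt.φ : Y.rt.D.R →+* Y.rt.T) Y.rt.φ_local
      (Y.πO : Y.rt.T →+* 𝒪) hπO
  have hloc' : IsLocalHom ((πO'.comp φ' : D'.R →ₐ[𝒪] 𝒪) : D'.R →+* 𝒪) :=
    Fermat.Agent.GP.Top.isLocalHom_comp' (φ' : D'.R →+* T') φ'_local (πO' : T' →+* 𝒪) hπO'
  have h𝒟 : GaloisRep.IsDeformationCondition 𝒪 (condFL 𝒪 p Smin Sig) :=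
    Fermat.Agent.GB.Def.Cond.Atom.isDeformationCondition_FL_of_flat p
      (Fermat.Agent.GB.Def.CondFlat.isDeformationCondition_isFlatAt p 𝒪) (Smin ∪ Sig) Smin
  have hloc𝒪 : IsLocalHom (algebraMap 𝒪 𝒪) := ⟨fun _ h => h⟩
  have hπs : Surjective (Y.πO.comp Y.rt.φ) := fun x =>
    ⟨algebraMap 𝒪 Y.rt.D.R x, by rw [AlgHom.commutes]; rfl⟩
  have hρ₀ : condFL 𝒪 p Smin Sig
      (Y.rt.D.ρ.baseChangeAlong ((Y.πO.comp Y.rt.φ : Y.rt.D.R →ₐ[𝒪] 𝒪) : Y.rt.D.R →+* 𝒪) hloc) :=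
    Fermat.Agent.GE2.AugQuot.of_surjective_baseChange h𝒟 Y.rt.D.instIsLocalHom
      Y.rt.D.residue_surjective hloc𝒪 residue_cover_self (Y.πO.comp Y.rt.φ) hloc hπs Y.rt.D.ρ
      Y.rt.D.isOfType
  refine hgrow_condFL Y.rt.D D' hp hq hpq hqS hρbar _ hρ₀ (Y.πO.comp Y.rt.φ) hloc
    ⟨GaloisRepAdic.Equiv.refl _⟩ (πO'.comp φ') hloc'
    (isEquiv_point Y.rt.D.ρ Y.rt.ρT D'.ρ ρT' Y.rt.φ Y.rt.φ_local Y.rt.φ_ρ φ' φ'_local φ'_ρ Y.πO hπO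
      πO' hπO' hsame hloc hloc') P hP hφ f₀ ?_ hc
  rw [hf₀, trace_point Y.rt.D.ρ Y.rt.ρT Y.rt.φ Y.rt.φ_local Y.rt.φ_ρ Y.πO hloc φ]

/-- **the binder `hgrow` of `Ind.RTNum.next`, strict-ordinary case** (`p` odd). -/
theorem hgrow_next_condSO {d : ℕ} (Y : RTNum ρbar (condSO 𝒪 p Smin Sig) d)
    (D' : GaloisRep.DeformationRingData 𝒪 ρbar (condSO 𝒪 p Smin (insert q Sig)))
    {T' : Type} [CommRing T'] [IsLocalRing T'] [Algebra 𝒪 T'] (ρT' : GaloisRepAdic T')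
    (φ' : D'.R →ₐ[𝒪] T') (φ'_local : IsLocalHom (φ' : D'.R →+* T'))
    (φ'_ρ : (D'.ρ.baseChangeAlong (φ' : D'.R →+* T') φ'_local).IsEquiv ρT')
    (πO' : T' →ₐ[𝒪] 𝒪)
    (hπO : IsLocalHom (Y.πO : Y.rt.T →+* 𝒪)) (hπO' : IsLocalHom (πO' : T' →+* 𝒪))
    (hsame : (ρT'.baseChangeAlong (πO' : T' →+* 𝒪) hπO').IsEquiv
      (Y.rt.ρT.baseChangeAlong (Y.πO : Y.rt.T →+* 𝒪) hπO))
    (hp : p.Prime) (hp2 : p ≠ 2) (hq : q.Prime) (hpq : p ≠ q) (hqS : q ∉ Smin ∪ Sig)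
    (hρbar : ρbar.IsUnramifiedAt q)
    (P : ValuationSubring Qb) (hP : P.LiesOverPrime q) {φ : GQ} (hφ : P.IsFrobeniusAt φ q)
    (f₀ : Matrix (Fin 2) (Fin 2) 𝒪) (hf₀ : f₀.trace = Y.πO (Y.rt.ρT.trace φ))
    (hc : wilesFactor f₀ (q : 𝒪) ≠ 0) :
    Finite (RingHom.ker (Y.πO.comp Y.rt.φ)).Cotangent →
      Finite (RingHom.ker (πO'.comp φ')).Cotangent ∧
        tanCard (πO'.comp φ') ≤ tanCard (Y.πO.comp Y.rt.φ) *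
          Nat.card (𝒪 ⧸ Ideal.span {wilesFactor f₀ (q : 𝒪)}) := by
  haveI : Fact p.Prime := ⟨hp⟩
  have hloc : IsLocalHom ((Y.πO.comp Y.rt.φ : Y.rt.D.R →ₐ[𝒪] 𝒪) : Y.rt.D.R →+* 𝒪) :=
    Fermat.Agent.GP.Top.isLocalHom_comp' (Y.rt.φ : Y.rt.D.R →+* Y.rt.T) Y.rt.φ_local
      (Y.πO : Y.rt.T →+* 𝒪) hπO
  have hloc' : IsLocalHom ((πO'.comp φ' : D'.R →ₐ[𝒪] 𝒪) : D'.R →+* 𝒪) :=
    Fermat.Agent.GP.Top.isLocalHom_comp' (φ' : D'.R →+* T') φ'_local (πO' : T' →+* 𝒪) hπO'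
  have h𝒟 : GaloisRep.IsDeformationCondition 𝒪 (condSO 𝒪 p Smin Sig) :=
    Fermat.Agent.GB.Def.Cond.isDeformationCondition_SO 𝒪 p hp2 (Smin ∪ Sig) Smin
  have hloc𝒪 : IsLocalHom (algebraMap 𝒪 𝒪) := ⟨fun _ h => h⟩
  have hπs : Surjective (Y.πO.comp Y.rt.φ) := fun x =>
    ⟨algebraMap 𝒪 Y.rt.D.R x, by rw [AlgHom.commutes]; rfl⟩
  have hρ₀ : condSO 𝒪 p Smin Sig
      (Y.rt.D.ρ.baseChangeAlong ((Y.πO.comp Y.rt.φ : Y.rt.D.R →ₐ[𝒪] 𝒪) : Y.rt.D.R →+* 𝒪) hloc) :=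
    Fermat.Agent.GE2.AugQuot.of_surjective_baseChange h𝒟 Y.rt.D.instIsLocalHom
      Y.rt.D.residue_surjective hloc𝒪 residue_cover_self (Y.πO.comp Y.rt.φ) hloc hπs Y.rt.D.ρ
      Y.rt.D.isOfType
  refine hgrow_condSO Y.rt.D D' hp hp2 hq hpq hqS hρbar _ hρ₀ (Y.πO.comp Y.rt.φ) hloc
    ⟨GaloisRepAdic.Equiv.refl _⟩ (πO'.comp φ') hloc'
    (isEquiv_point Y.rt.D.ρ Y.rt.ρT D'.ρ ρT' Y.rt.φ Y.rt.φ_local Y.rt.φ_ρ φ' φ'_local φ'_ρ Y.πO hπO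
      πO' hπO' hsame hloc hloc') P hP hφ f₀ ?_ hc
  rw [hf₀, trace_point Y.rt.D.ρ Y.rt.ρT Y.rt.φ Y.rt.φ_local Y.rt.φ_ρ Y.πO hloc φ]

/-- **ONE STEP `Σ ↦ insert q Σ` of the induction, flat case, (GROWTH) discharged**: the next
`RTNum` from the raw next-stage data + `hsame` + (ETA) + (M1).  (Seam plug-test
GROWTH → `RTNum.next`.) -/
noncomputable def nextFL {d : ℕ} (hd : d ≠ 0) (Y : RTNum ρbar (condFL 𝒪 p Smin Sig) d)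
    (D' : GaloisRep.DeformationRingData 𝒪 ρbar (condFL 𝒪 p Smin (insert q Sig)))
    {N' : ℕ} [NeZero N'] {S' : Set ℕ} {T' : Type} [CommRing T'] [IsLocalRing T'] [Algebra 𝒪 T']
    [Module.Finite 𝒪 T'] [Module.Free 𝒪 T']
    (π' : CuspForm.heckeAlgebra N' 2 S' →+* T') (ρT' : GaloisRepAdic T')
    (hcp' : ∀ (r : ℕ) (hr : r.Prime) (hrN : ¬ r ∣ N') (hrS : r ∉ S'),
      ∀ A : ValuationSubring (AlgebraicClosure ℚ), A.LiesOverPrime r →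
        ∀ σ : GQ, A.IsFrobeniusAt σ r →
          LinearMap.charpoly (ρT'.ρ σ) =
            Polynomial.X ^ 2 - Polynomial.C (π' (CuspForm.heckeAlgebra.T hr hrN hrS)) *
              Polynomial.X + Polynomial.C ((r : T')))
    (φ' : D'.R →ₐ[𝒪] T') (hφ' : Function.Surjective φ')
    (φ'_local : IsLocalHom (φ' : D'.R →+* T'))
    (φ'_ρ : (D'.ρ.baseChangeAlong (φ' : D'.R →+* T') φ'_local).IsEquiv ρT')
    (πO' : T' →ₐ[𝒪] 𝒪) (hη' : Fermat.Agent.GE9.NumCrit.etaIdeal πO' ≠ ⊥)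
    {m : ℕ} (γ : MvPowerSeries (Fin m) 𝒪 →ₐ[𝒪] D'.R) (hγ : Function.Surjective γ)
    (hπO : IsLocalHom (Y.πO : Y.rt.T →+* 𝒪)) (hπO' : IsLocalHom (πO' : T' →+* 𝒪))
    (hsame : (ρT'.baseChangeAlong (πO' : T' →+* 𝒪) hπO').IsEquiv
      (Y.rt.ρT.baseChangeAlong (Y.πO : Y.rt.T →+* 𝒪) hπO))
    (hp : p.Prime) (hq : q.Prime) (hpq : p ≠ q) (hqS : q ∉ Smin ∪ Sig)
    (hρbar : ρbar.IsUnramifiedAt q)
    (P : ValuationSubring Qb) (hP : P.LiesOverPrime q) {φ : GQ} (hφ : P.IsFrobeniusAt φ q)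
    (f₀ : Matrix (Fin 2) (Fin 2) 𝒪) (hf₀ : f₀.trace = Y.πO (Y.rt.ρT.trace φ))
    (hc : wilesFactor f₀ (q : 𝒪) ≠ 0) (w' : ℕ)
    (heta : Y.w * Nat.card (𝒪 ⧸ Ideal.span {wilesFactor f₀ (q : 𝒪)}) ^ d ≤ w')
    (hM1 : w' ≤ etaCard πO' ^ d) : RTNum ρbar (condFL 𝒪 p Smin (insert q Sig)) d :=
  Y.next hd D' π' ρT' hcp' φ' hφ' φ'_local φ'_ρ πO' hη' γ hγ
    (Nat.card (𝒪 ⧸ Ideal.span {wilesFactor f₀ (q : 𝒪)})) w'
    (hgrow_next_condFL Y D' ρT' φ' φ'_local φ'_ρ πO' hπO hπO' hsame hp hq hpq hqS hρbar P hP hφ f₀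
      hf₀ hc) heta hM1

/-- **ONE STEP `Σ ↦ insert q Σ` of the induction, strict-ordinary case, (GROWTH) discharged.** -/
noncomputable def nextSO {d : ℕ} (hd : d ≠ 0) (Y : RTNum ρbar (condSO 𝒪 p Smin Sig) d)
    (D' : GaloisRep.DeformationRingData 𝒪 ρbar (condSO 𝒪 p Smin (insert q Sig)))
    {N' : ℕ} [NeZero N'] {S' : Set ℕ} {T' : Type} [CommRing T'] [IsLocalRing T'] [Algebra 𝒪 T']
    [Module.Finite 𝒪 T'] [Module.Free 𝒪 T']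
    (π' : CuspForm.heckeAlgebra N' 2 S' →+* T') (ρT' : GaloisRepAdic T')
    (hcp' : ∀ (r : ℕ) (hr : r.Prime) (hrN : ¬ r ∣ N') (hrS : r ∉ S'),
      ∀ A : ValuationSubring (AlgebraicClosure ℚ), A.LiesOverPrime r →
        ∀ σ : GQ, A.IsFrobeniusAt σ r →
          LinearMap.charpoly (ρT'.ρ σ) =
            Polynomial.X ^ 2 - Polynomial.C (π' (CuspForm.heckeAlgebra.T hr hrN hrS)) *
              Polynomial.X + Polynomial.C ((r : T')))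
    (φ' : D'.R →ₐ[𝒪] T') (hφ' : Function.Surjective φ')
    (φ'_local : IsLocalHom (φ' : D'.R →+* T'))
    (φ'_ρ : (D'.ρ.baseChangeAlong (φ' : D'.R →+* T') φ'_local).IsEquiv ρT')
    (πO' : T' →ₐ[𝒪] 𝒪) (hη' : Fermat.Agent.GE9.NumCrit.etaIdeal πO' ≠ ⊥)
    {m : ℕ} (γ : MvPowerSeries (Fin m) 𝒪 →ₐ[𝒪] D'.R) (hγ : Function.Surjective γ)
    (hπO : IsLocalHom (Y.πO : Y.rt.T →+* 𝒪)) (hπO' : IsLocalHom (πO' : T' →+* 𝒪))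
    (hsame : (ρT'.baseChangeAlong (πO' : T' →+* 𝒪) hπO').IsEquiv
      (Y.rt.ρT.baseChangeAlong (Y.πO : Y.rt.T →+* 𝒪) hπO))
    (hp : p.Prime) (hp2 : p ≠ 2) (hq : q.Prime) (hpq : p ≠ q) (hqS : q ∉ Smin ∪ Sig)
    (hρbar : ρbar.IsUnramifiedAt q)
    (P : ValuationSubring Qb) (hP : P.LiesOverPrime q) {φ : GQ} (hφ : P.IsFrobeniusAt φ q)
    (f₀ : Matrix (Fin 2) (Fin 2) 𝒪) (hf₀ : f₀.trace = Y.πO (Y.rt.ρT.trace φ))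
    (hc : wilesFactor f₀ (q : 𝒪) ≠ 0) (w' : ℕ)
    (heta : Y.w * Nat.card (𝒪 ⧸ Ideal.span {wilesFactor f₀ (q : 𝒪)}) ^ d ≤ w')
    (hM1 : w' ≤ etaCard πO' ^ d) : RTNum ρbar (condSO 𝒪 p Smin (insert q Sig)) d :=
  Y.next hd D' π' ρT' hcp' φ' hφ' φ'_local φ'_ρ πO' hη' γ hγ
    (Nat.card (𝒪 ⧸ Ideal.span {wilesFactor f₀ (q : 𝒪)})) w'
    (hgrow_next_condSO Y D' ρT' φ' φ'_local φ'_ρ πO' hπO hπO' hsame hp hp2 hq hpq hqS hρbar P hP hφ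
      f₀ hf₀ hc) heta hM1

end Next

end Fermat.Agent.GE9.CotGrowth
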